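/-
TR (row 38 through S44) — the TOP SEAM (helper20).

`s44_of : TRRep → TREst → TRKey → (frozen statement S44)`.

* `TRRep`  (REP)  : `E[p] ↪ J₀(N)`, Galois- and Hecke-equivariant (Frey form);
* `TREst`  (E-ST) : the inertia line `L_E ⊂ E[p]` at `p ∣ abc`;
* `TRKey`  (KEY)  : the `J`-side statement `V ≤ kerRed h W`;
* (E-DEEP) is a theorem (`TR.ESide.Deep.frey_fixed_of_close_subgroup`), consumed directly;
* the final contradiction is `Padic.S33.KerRedPkg.not_le_kerRed` ((NCg) on the kernel of reduction).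
-/
import Mathlib
import Fermat.Prelude.Def_FLTPrelim_FreyPackage
import Fermat.Prelude.Def_FLTPrelim_GaloisRep
import Fermat.Prelude.Def_FLTPrelim_Modularity
import Fermat.Prelude.Def_FLTPrelim_ModularRep
import Fermat.Prelude.Def_FLTPrelim_Ramification
import Fermat.Prelude.Def_FreyPackage_IsConductorLevel
import Fermat.Agent.EC.Defs
import Fermat.Agent.EC.FrobFixed.NonEisensteinFinal
import Fermat.Agent.Lib.ECBiquad.Main
import Fermat.Agent.Lib.FrobeniusExists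
import Fermat.Agent.S13.Assembly
import Fermat.Agent.TR.ESide.FreyDeep
import Fermat.Agent.Padic.S33.KerRedPkg

set_option autoImplicit false
set_option linter.unusedSectionVars false
set_option linter.style.haveILetI false

open WeierstrassCurve WeierstrassCurve.Affine WeierstrassCurve.Affine.Point
open CuspForm ModularFormClass UpperHalfPlane
open ModularCurve AlgebraicCurve

namespace Fermat.Agent.TR.Top

open Fermat.Agent.EC Fermat.Agent.BAD.TwoVal Fermat.Agent.BAD.BadU Fermat.Agent.BAD.KerRed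

local notation "Qb" => AlgebraicClosure ℚ
local notation "GQ" => (AlgebraicClosure ℚ ≃ₐ[ℚ] AlgebraicClosure ℚ)

/-- **(REP)**, Frey form: for an integral model `W` of the Frey curve which is residually modular
of level `N`, the `p`-torsion of the Frey curve embeds Galois-equivariantly into `J₀(N)`, with
`T_ℓ` acting by `a_ℓ(W)` at the good primes `ℓ ∤ N`, `ℓ ≠ p`. -/
def TRRep : Prop :=
  ∀ (P : FreyPackage) (N : ℕ) [NeZero N],
    GaloisRepIsIrreducible (K := Qb) ℚ P.freyCurve P.p →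
    ∀ W : WeierstrassCurve ℤ, W.IsIntegralModelOf P.freyCurve →
      W.IsResiduallyModularOfLevel P.p N →
      ∃ j : FreyV P →+ JZero N, Function.Injective j ∧
        (∀ (σ : GQ) (x : FreyV P), j (σ • x) = σ • j x) ∧
        ∀ ℓ : Nat.Primes, W.IsGoodPrimeFor ℓ → ¬ (ℓ : ℕ) ∣ N → (ℓ : ℕ) ≠ P.p →
          ∀ x : FreyV P, heckeOperatorBar N ℓ (j x) = W.apOfModel ℓ • j x

/-- **(E-ST)**: at `p ∣ abc` the `p`-torsion of the Frey curve has a subgroup `L` of order `p` such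
that inertia at `p` acts trivially modulo `L` and through the mod `p` cyclotomic character on
`L`. -/
def TREst : Prop :=
  ∀ (P : FreyPackage), (P.p : ℤ) ∣ P.a * P.b * P.c →
    ∀ A : ValuationSubring Qb, A.LiesOverPrime P.p →
      ∃ L : AddSubgroup (FreyV P), Nat.card L = P.p ∧
        (∀ σ ∈ A.inertiaSubgroupIn ℚ, ∀ x : FreyV P, σ • x - x ∈ L) ∧
        (∀ σ ∈ A.inertiaSubgroupIn ℚ, ∀ a : ℕ, (∀ μ : Qb, μ ^ P.p = 1 → σ μ = μ ^ a) →
          ∀ x ∈ L, σ • x = a • x)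

/-- **(KEY)**, the `J`-side statement: a subgroup `V ≅ (ℤ/p)²` of `J₀(Mp)[p]` which is a
non-Eisenstein, not `p`-old Hecke eigenspace with inertia of shape `[ω *; 0 1]` and peu ramifié
(depth form) lies in the kernel of reduction. -/
def TRKey : Prop :=
  ∀ (A : ValuationSubring Qb) (M p : ℕ) [NeZero M] [NeZero p]
    (h : BadSetup A (IsLocalRing.residue A) M p), A.LiesOverPrime p → 5 ≤ p →
    ∀ W : laurentBaseChange Qb (modularFunctionFieldFull (M * p)) ≃ₐ[Qb]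
      laurentBaseChange Qb (modularFunctionFieldFull (M * p)), IsAL M p W →
    ∀ (a : Nat.Primes → ℤ) (S : Finset ℕ), p ∈ S → (∀ q : ℕ, q.Prime → q ∣ M → q ∈ S) →
    -- (NE)
    (∃ ℓ : Nat.Primes, (ℓ : ℕ) ∉ S ∧ ¬ (p : ℤ) ∣ a ℓ - (ℓ : ℕ) - 1) →
    -- (NO)
    (¬ ∃ (g : CuspForm (CongruenceSubgroup.Gamma0 M) 2) (𝔪 : Ideal (integralClosure ℤ ℂ)),
      g.IsNormalizedEigenform ∧ 𝔪.IsMaximal ∧ (p : integralClosure ℤ ℂ) ∈ 𝔪 ∧
      ∀ ℓ : Nat.Primes, (ℓ : ℕ) ∉ S →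
        ∃ c : integralClosure ℤ ℂ, (c : ℂ) = ModularFormClass.qCoeff g ℓ ∧
          c - ((a ℓ : ℤ) : integralClosure ℤ ℂ) ∈ 𝔪) →
    ∀ V L : AddSubgroup (JZero (M * p)), L ≤ V → (∀ x ∈ V, p • x = 0) →
      Nat.card V = p ^ 2 → Nat.card L = p →
    -- (H)
    (∀ ℓ : Nat.Primes, (ℓ : ℕ) ∉ S → ∀ x ∈ V, heckeOperatorBar (M * p) ℓ x = a ℓ • x) →
    -- (ST)
    (∀ σ ∈ A.inertiaSubgroupIn ℚ, ∀ v ∈ V, σ • v - v ∈ L) →
    (∀ σ ∈ A.inertiaSubgroupIn ℚ, ∀ a : ℕ, (∀ μ : Qb, μ ^ p = 1 → σ μ = μ ^ a) →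
      ∀ v ∈ L, σ • v = a • v) →
    -- (DEEP)
    (∀ σ ∈ A.inertiaSubgroupIn ℚ, ∀ ρ : A.ValueGroup, ρ ^ (p - 1) < A.valuation ((p : ℕ) : Qb) →
      (∀ c ∈ A, (∀ τ ∈ A.inertiaSubgroupIn ℚ, (∀ x ∈ V, τ • x = x) → τ c = c) →
        A.valuation (σ c - c) ≤ ρ) →
      ∀ x ∈ V, σ • x = x) →
    V ≤ kerRed h W

/-- `p • x = 0` in the `p`-torsion of the Frey curve. -/
theorem freyV_nsmul (P : FreyPackage) (x : FreyV P) : P.p • x = 0 :=
  Subtype.ext (by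
    rw [Submodule.coe_smul_of_tower, Submodule.coe_zero]
    exact freyV_nsmul_coe P x)

set_option maxHeartbeats 1000000 in
/-- **The top seam of TR**: the frozen statement S44 from (REP), (E-ST) and (KEY). -/
theorem s44_of (hREP : TRRep) (hEST : TREst) (hKEY : TRKey)
    (P : FreyPackage) {N : ℕ} (hcond : P.IsConductorLevel N) (hpN : P.p ∣ N)
    (hirr : GaloisRepIsIrreducible (K := AlgebraicClosure ℚ) ℚ P.freyCurve P.p)
    (hmod : P.ModularRepOfLevel N) :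
    ∃ M : ℕ, M ∣ N ∧ ¬ P.p ∣ M ∧ P.ModularRepOfLevel M := by
  classical
  by_contra hcon
  obtain ⟨M, rfl⟩ : ∃ M, N = M * P.p := ⟨N / P.p, (Nat.div_mul_cancel hpN).symm⟩
  have hpp : P.p.Prime := P.pp
  have hp5 : 5 ≤ P.p := P.hp5
  have hp2 : P.p ≠ 2 := by omega
  have hpM : ¬ P.p ∣ M := by
    rintro ⟨t, rfl⟩
    exact hcond.sq_not_dvd hpp ⟨t, by ring⟩
  have hM0 : M ≠ 0 := by
    rintro rfl
    have := hcond.pos
    simp at this
  have hNO : ¬ P.ModularRepOfLevel M := fun h => hcon ⟨M, Dvd.intro _ rfl, hpM, h⟩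
  haveI : NeZero M := ⟨hM0⟩
  haveI : NeZero P.p := ⟨hpp.ne_zero⟩
  haveI : P.freyCurve.IsElliptic :=
    ⟨isUnit_iff_ne_zero.mpr (Fermat.Agent.S13.Assembly.freyCurve_Δ_ne_zero P)⟩
  obtain ⟨f, W, 𝔪, hf, hW, h𝔪, hp𝔪, hcong⟩ := hmod
  obtain ⟨j, hjinj, hjeq, hjT⟩ := hREP P (M * P.p) hirr W hW ⟨f, 𝔪, hf, h𝔪, hp𝔪, hcong⟩
  obtain ⟨A, hA⟩ := Fermat.Agent.Lib.FrobeniusExists.exists_liesOverPrime hpp
  have hpabc : (P.p : ℤ) ∣ P.a * P.b * P.c := hcond.p_dvd_abc hpN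
  obtain ⟨LE, hLEcard, hLEq, hLEc⟩ := hEST P hpabc A hA
  have hπ0 : ∀ a : A, ¬ IsUnit a → IsLocalRing.residue A a = 0 := fun a ha =>
    (IsLocalRing.residue_eq_zero_iff a).mpr ((IsLocalRing.mem_maximalIdeal a).mpr ha)
  have h : BadSetup A (IsLocalRing.residue A) M P.p :=
    badSetup_of_liesOver A _ hπ0 M P.p hpp hA hpM
  obtain ⟨Wal, hWal⟩ := exists_isAL_Qb h
  -- the subgroups `V = j(E[p])`, `L = j(L_E)`
  have hcardE : Nat.card (FreyV P) = P.p ^ 2 :=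
    Fermat.Agent.Lib.ECBiquad.card_torsionBy_rat P.freyCurve
      (Fermat.Agent.S13.Assembly.freyCurve_Δ_ne_zero P) hpp.ne_zero
  have hLV : LE.map j ≤ j.range := by
    rintro _ ⟨x, -, rfl⟩
    exact ⟨x, rfl⟩
  have hVp : ∀ x ∈ j.range, P.p • x = 0 := by
    rintro _ ⟨x, rfl⟩
    rw [← map_nsmul, freyV_nsmul, _root_.map_zero]
  have hcardV : Nat.card j.range = P.p ^ 2 :=
    (Nat.card_congr (AddMonoidHom.ofInjective hjinj).toEquiv.symm).trans hcardE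
  have hcardL : Nat.card (LE.map j) = P.p :=
    (Nat.card_congr (LE.equivMapOfInjective j hjinj).toEquiv.symm).trans hLEcard
  have hne : ¬ j.range ≤ LE.map j := by
    intro hle
    have hfin : Finite (LE.map j) := Nat.finite_of_card_ne_zero (by rw [hcardL]; exact hpp.ne_zero)
    have h1 := Nat.card_le_card_of_injective (AddSubgroup.inclusion hle)
      (AddSubgroup.inclusion_injective hle)
    rw [hcardV, hcardL] at h1
    have h2 : P.p < P.p ^ 2 := by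
      have := hpp.one_lt
      nlinarith
    omega
  -- (ST) transported
  have hquot : ∀ σ ∈ A.inertiaSubgroupIn ℚ, ∀ v ∈ j.range, σ • v - v ∈ LE.map j := by
    rintro σ hσ _ ⟨x, rfl⟩
    exact ⟨σ • x - x, hLEq σ hσ x, by rw [map_sub, hjeq]⟩
  have hcyc : ∀ σ ∈ A.inertiaSubgroupIn ℚ, ∀ a : ℕ, (∀ μ : Qb, μ ^ P.p = 1 → σ μ = μ ^ a) →
      ∀ v ∈ LE.map j, σ • v = a • v := by
    rintro σ hσ a ha _ ⟨x, hx, rfl⟩
    rw [← hjeq, hLEc σ hσ a ha x hx, map_nsmul]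
  -- (DEEP) transported
  have hdeep : ∀ σ ∈ A.inertiaSubgroupIn ℚ, ∀ ρ : A.ValueGroup,
      ρ ^ (P.p - 1) < A.valuation ((P.p : ℕ) : Qb) →
      (∀ c ∈ A, (∀ τ ∈ A.inertiaSubgroupIn ℚ, (∀ x ∈ j.range, τ • x = x) → τ c = c) →
        A.valuation (σ c - c) ≤ ρ) →
      ∀ x ∈ j.range, σ • x = x := by
    rintro σ hσ ρ hρ hc _ ⟨y, rfl⟩
    let H : Subgroup GQ :=
      (A.inertiaSubgroupIn ℚ) ⊓ (⨅ y : FreyV P, MulAction.stabilizer GQ y)
    have hH : ∀ τ ∈ H, ∀ y : FreyV P, τ • y = y := by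
      intro τ hτ y
      have h1 := (Subgroup.mem_iInf.1 (Subgroup.mem_inf.1 hτ).2) y
      exact MulAction.mem_stabilizer_iff.1 h1
    have hfix : σ • y = y := by
      refine Fermat.Agent.TR.ESide.Deep.frey_fixed_of_close_subgroup P hpabc A hA σ H y
        (fun τ hτ => hH τ hτ y) hρ (fun z hz hzH => hc z hz (fun τ hτ hτV => hzH τ ?_))
      refine Subgroup.mem_inf.2 ⟨hτ, Subgroup.mem_iInf.2 (fun y' => ?_)⟩
      rw [MulAction.mem_stabilizer_iff]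
      apply hjinj
      rw [hjeq]
      exact hτV _ ⟨y', rfl⟩
    rw [← hjeq, hfix]
  -- the set of excluded primes
  set S : Finset ℕ := insert P.p (M.primeFactors ∪ W.Δ.natAbs.primeFactors) with hS
  have hWΔ : W.Δ ≠ 0 := by
    obtain ⟨C, hC⟩ := hW
    intro h0
    have h1 : (W.map (Int.castRingHom ℚ)).Δ = 0 := by
      rw [WeierstrassCurve.map_Δ, h0, _root_.map_zero]
    rw [← hC, WeierstrassCurve.variableChange_Δ] at h1
    have h2 := Fermat.Agent.S13.Assembly.freyCurve_Δ_ne_zero P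
    have h3 : ((C.u⁻¹ : ℚˣ) : ℚ) ^ 12 ≠ 0 := pow_ne_zero _ (Units.ne_zero _)
    exact (mul_ne_zero h3 h2) h1
  have hSgood : ∀ ℓ : ℕ, ℓ.Prime → ℓ ∉ S → W.IsGoodPrimeFor ℓ ∧ ¬ ℓ ∣ M * P.p ∧ ℓ ≠ P.p := by
    intro ℓ hℓ hℓS
    rw [hS, Finset.mem_insert, Finset.mem_union, not_or, not_or] at hℓS
    obtain ⟨h1, h2, h3⟩ := hℓS
    have h2' : ¬ ℓ ∣ M := fun hd => h2 (Nat.mem_primeFactors.2 ⟨hℓ, hd, hM0⟩)
    refine ⟨fun hd => h3 (Nat.mem_primeFactors.2 ⟨hℓ, ?_, Int.natAbs_ne_zero.2 hWΔ⟩), ?_, h1⟩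
    · exact Int.natCast_dvd.1 hd
    · intro hd
      rcases (Nat.Prime.dvd_mul hℓ).1 hd with hd | hd
      · exact h2' hd
      · exact h1 ((Nat.prime_dvd_prime_iff_eq hℓ hpp).1 hd)
  have hSgood' : ∀ ℓ : ℕ, ℓ.Prime → W.IsGoodPrimeFor ℓ → ¬ ℓ ∣ M → ℓ ≠ P.p → ℓ ∉ S := by
    intro ℓ hℓ hg hℓM hℓp hℓS
    rw [hS, Finset.mem_insert, Finset.mem_union] at hℓS
    rcases hℓS with h1 | h2 | h3
    · exact hℓp h1
    · exact hℓM (Nat.mem_primeFactors.1 h2).2.1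
    · exact hg (Int.natCast_dvd.2 (Nat.mem_primeFactors.1 h3).2.1)
  -- (NE)
  have hNE : ∃ ℓ : Nat.Primes, (ℓ : ℕ) ∉ S ∧ ¬ (P.p : ℤ) ∣ W.apOfModel ℓ - (ℓ : ℕ) - 1 := by
    obtain ⟨ℓ, hℓ, hℓS, -, -, hnd⟩ :=
      Fermat.Agent.EC.FrobFixed.exists_good_prime_not_dvd P.freyCurve hW hpp hirr S
    refine ⟨⟨ℓ, hℓ⟩, hℓS, fun hd => hnd ?_⟩
    have e : (ℓ : ℤ) + 1 - W.apOfModel ℓ = -(W.apOfModel ℓ - (ℓ : ℕ) - 1) := by
      ring
    rw [e]
    exact (dvd_neg).2 hd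
  -- (NO)
  have hNO' : ¬ ∃ (g : CuspForm (CongruenceSubgroup.Gamma0 M) 2)
      (𝔪' : Ideal (integralClosure ℤ ℂ)),
      g.IsNormalizedEigenform ∧ 𝔪'.IsMaximal ∧ ((P.p : ℕ) : integralClosure ℤ ℂ) ∈ 𝔪' ∧
      ∀ ℓ : Nat.Primes, (ℓ : ℕ) ∉ S →
        ∃ c : integralClosure ℤ ℂ, (c : ℂ) = ModularFormClass.qCoeff g ℓ ∧
          c - ((W.apOfModel ℓ : ℤ) : integralClosure ℤ ℂ) ∈ 𝔪' := by
    rintro ⟨g, 𝔪', hg, h𝔪', hp𝔪', hgc⟩
    exact hNO ⟨g, W, 𝔪', hg, hW, h𝔪', hp𝔪', fun ℓ hℓ hgood hℓM hℓp =>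
      hgc ⟨ℓ, hℓ⟩ (hSgood' ℓ hℓ hgood hℓM hℓp)⟩
  -- (H)
  have hH : ∀ ℓ : Nat.Primes, (ℓ : ℕ) ∉ S → ∀ x ∈ j.range,
      heckeOperatorBar (M * P.p) ℓ x = W.apOfModel ℓ • x := by
    rintro ℓ hℓS _ ⟨x, rfl⟩
    obtain ⟨h1, h2, h3⟩ := hSgood ℓ ℓ.2 hℓS
    exact hjT ℓ h1 h2 h3 x
  -- (KEY) and the contradiction
  have hKer : j.range ≤ kerRed h Wal :=
    hKEY A M P.p h hA hp5 Wal hWal (fun ℓ => W.apOfModel ℓ) S (Finset.mem_insert_self _ _)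
      (fun q hq hqM => Finset.mem_insert_of_mem
        (Finset.mem_union_left _ (Nat.mem_primeFactors.2 ⟨hq, hqM, hM0⟩)))
      hNE hNO' j.range (LE.map j) hLV hVp hcardV hcardL hH hquot hcyc hdeep
  exact Fermat.Agent.Padic.S33.KerRedPkg.not_le_kerRed A M P.p h hA hp2 (Or.inl hp5) Wal hWal
    j.range (LE.map j) hLV hne hVp hquot hcyc hKer

end Fermat.Agent.TR.Top
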