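/-
TR (row 38 through S44) — the MIDDLE SEAM (helper27): `TRKey` from (PL∞) and the pointwise Hecke
side.

* `TRKeyInfPt` : the pointwise Hecke-side statement — a Hecke eigenclass `x` (non-Eisenstein,
  not `p`-old eigenvalues) with a Kummer function `f`, a unit of `O_∞`, whose reduction satisfies
  the conclusion `PL.Seam.PLConcl` of (PL∞): then `redInf f` is a `p`-th power;
* `trKeyInf_of : PL.Seam.PLInf → TRKeyInfPt → Zero.TRKeyInf` (every `x ∈ V` has a Kummer function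
  which is a unit of `O_∞`: `BAD.KerRed.exists_isKummerPair_unit`);
* `trKey_of : PL.Seam.PLInf → TRKeyInfPt → TRKey` (through helper34's
  `Zero.trKey_of_inf : TRKeyInf → TRKey`, the `0`-side transport).
-/
import Mathlib
import Fermat.Agent.TR.Zero.KeyOfInf
import Fermat.Agent.TR.PL.Seam
import Fermat.Agent.BAD.KerRedKummerAdp

set_option autoImplicit false
set_option linter.unusedSectionVars false
set_option linter.style.haveILetI false

open ModularCurve AlgebraicCurve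

namespace Fermat.Agent.TR.Top.KeyOf

open Fermat.Agent.BAD.TwoVal Fermat.Agent.BAD.BadU Fermat.Agent.BAD.KerRed
  Fermat.Agent.ESJ.Jac Fermat.Agent.TR.PL.Seam Fermat.Agent.TR.Top Fermat.Agent.TR.Zero

local notation "Qb" => AlgebraicClosure ℚ

/-- **(KEY∞), pointwise Hecke side**: a class `x` with Hecke eigenvalues `a ℓ` (`ℓ ∉ S`) which are
non-Eisenstein (NE) and not `p`-old (NO), and a Kummer function `f` of `x`, a unit of `O_∞`,
whose reduction satisfies the conclusion of (PL∞): then `redInf f` is a `p`-th power. -/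
def TRKeyInfPt : Prop :=
  ∀ (A : ValuationSubring Qb) (M p : ℕ) [NeZero M] [NeZero p]
    (h : BadSetup A (IsLocalRing.residue A) M p), A.LiesOverPrime p → 5 ≤ p →
    ∀ W : laurentBaseChange Qb (modularFunctionFieldFull (M * p)) ≃ₐ[Qb]
      laurentBaseChange Qb (modularFunctionFieldFull (M * p)), IsAL M p W →
    ∀ (a : Nat.Primes → ℤ) (S : Finset ℕ), p ∈ S → (∀ q : ℕ, q.Prime → q ∣ M → q ∈ S) →
    -- (NE)
    (∃ ℓ : Nat.Primes, (ℓ : ℕ) ∉ S ∧ ¬ (p : ℤ) ∣ a ℓ - (ℓ : ℕ) - 1) →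
    -- (NO)
    (¬ ∃ (g : CuspForm (CongruenceSubgroup.Gamma0 M) 2) (𝔪 : Ideal (integralClosure ℤ ℂ)),
      g.IsNormalizedEigenform ∧ 𝔪.IsMaximal ∧ (p : integralClosure ℤ ℂ) ∈ 𝔪 ∧
      ∀ ℓ : Nat.Primes, (ℓ : ℕ) ∉ S →
        ∃ c : integralClosure ℤ ℂ, (c : ℂ) = ModularFormClass.qCoeff g ℓ ∧
          c - ((a ℓ : ℤ) : integralClosure ℤ ℂ) ∈ 𝔪) →
    ∀ x : JZero (M * p),
    -- (H)
    (∀ ℓ : Nat.Primes, (ℓ : ℕ) ∉ S → heckeOperatorBar (M * p) ℓ x = a ℓ • x) →
    ∀ f : laurentBaseChange Qb (modularFunctionFieldFull (M * p)),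
      IsKummerPair p x f → ∀ hf : f ∈ OInf h, f⁻¹ ∈ OInf h → PLConcl h p f hf →
        ∃ u : ↥(modularFunctionFieldFullC (IsLocalRing.ResidueField A) M),
          u ^ p = redInf h ⟨f, hf⟩

/-- The `∞`-half of (KEY) from (PL∞) and the pointwise Hecke side. -/
theorem trKeyInf_of (hPL : PLInf) (hPt : TRKeyInfPt) : TRKeyInf := by
  intro A M p _ _ h hA hp5 W hW a S hpS hMS hNE hNO V L hLV hpV hcardV hcardL hH hquot hcyc hdeep
    x hx
  have hp : p.Prime := h.hℓ
  -- a Kummer function of `x` which is a unit of `O_∞`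
  have hxt : x ∈ Pic0.torsion Qb (laurentBaseChange Qb (modularFunctionFieldFull (M * p))) p := by
    rw [Pic0.mem_torsion, natCast_zsmul]
    exact hpV x hx
  obtain ⟨f₀, hk₀⟩ := exists_isKummerPair hxt
  obtain ⟨f, hk, hf, -, hne, -, -, hfiP⟩ :=
    exists_isKummerPair_unit h W hW p hp.ne_zero x f₀ hk₀
  have hfi : f⁻¹ ∈ OInf h := ((mem_OPair_iff h _).1 hfiP).1
  have hpl : PLConcl h p f hf :=
    hPL A M p h hA hp5 W hW V L hLV hpV hcardV hcardL hquot hcyc hdeep x hx f hk hf hfi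
  obtain ⟨u, hu⟩ :=
    hPt A M p h hA hp5 W hW a S hpS hMS hNE hNO x (fun ℓ hℓ => hH ℓ hℓ x hx) f hk hf hfi hpl
  refine ⟨f, hf, u, hk, hu.symm, ?_⟩
  rintro rfl
  exact hne (by rw [← hu, zero_pow hp.ne_zero])

/-- **(KEY) from (PL∞) and the pointwise Hecke side.** -/
theorem trKey_of (hPL : PLInf) (hPt : TRKeyInfPt) : TRKey :=
  trKey_of_inf (trKeyInf_of hPL hPt)

end Fermat.Agent.TR.Top.KeyOf
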