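/-
TR (row 38 through S44) — the Hecke side closed (helper27): `TRKey` from (PL∞) alone.

* `trKeyInfPt : KeyOf.TRKeyInfPt` — the pointwise Hecke-side key is a theorem: helper35's
  `KeyInf35.keyInf_pointwise` (`eis` of helper17 + `KumRed35.kumRed` + helper87's generic (OLD-a)),
  with (SPEC∞) = helper85's `SpecClosed.specInf_kummer` and NodeUnit = helper85's
  `NodeUnitClosed.nodeUnit'`;
* `trKey_of_plInf : PL.Seam.PLInf → TRKey`.
-/
import Mathlib
import Fermat.Agent.TR.Top.KeyOf
import Fermat.Agent.TR.Hecke.KeyInf35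
import Fermat.Agent.TR.Node.NodeUnitClosed
import Fermat.Agent.TR.Node.SpecClosed

set_option autoImplicit false
set_option linter.unusedSectionVars false
set_option linter.style.haveILetI false

open ModularCurve AlgebraicCurve

namespace Fermat.Agent.TR.Top.KeyClosed

open Fermat.Agent.BAD.TwoVal Fermat.Agent.BAD.BadU Fermat.Agent.ESJ.Jac
  Fermat.Agent.TR.PL.Seam Fermat.Agent.TR.Top Fermat.Agent.TR.Top.KeyOf

local notation "Qb" => AlgebraicClosure ℚ

set_option synthInstance.maxHeartbeats 400000 in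
set_option maxHeartbeats 1000000 in
/-- **The pointwise Hecke-side key is a theorem.** -/
theorem trKeyInfPt : TRKeyInfPt := by
  intro A M p _ _ h hA hp5 W hW a S hpS hMS hNE hNO x hH f hk hf hfi hpl
  exact Fermat.Agent.TR.Hecke.KeyInf35.keyInf_pointwise A M p h hA hp5 a S hpS hMS hNE hNO x hH
    f hk hf hfi hpl
    (fun Q hQ => Fermat.Agent.TR.Node.SpecClosed.specInf_kummer A hA h hp5 W hW hk hf hfi Q hQ)
    (Fermat.Agent.TR.Node.NodeUnitClosed.nodeUnit' A hA h hp5 W hW)

/-- **(KEY) from (PL∞).** -/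
theorem trKey_of_plInf (hPL : PLInf) : TRKey :=
  trKey_of hPL trKeyInfPt

end Fermat.Agent.TR.Top.KeyClosed
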