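/-
TR (row 38 through S44) — the TOP SEAM, second layer (helper20).

`tRRep : TRRep` — (REP) is a theorem (helper72, `TR.Hecke.Rep.exists_embedding_of_model`), so the
top seam only needs (E-ST) and (KEY):

`s44_of_est_key : TREst → TRKey → (frozen statement S44)`.
-/
import Mathlib
import Fermat.Agent.TR.Top.S44Of
import Fermat.Agent.TR.Hecke.RepFrey

set_option autoImplicit false

open WeierstrassCurve WeierstrassCurve.Affine WeierstrassCurve.Affine.Point
open CuspForm ModularFormClass UpperHalfPlane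
open ModularCurve AlgebraicCurve

namespace Fermat.Agent.TR.Top

/-- **(REP)** is a theorem. -/
theorem tRRep : TRRep := by
  intro P N _ hirr W hW hres
  have hp2 : P.p ≠ 2 := by
    have := P.hp5
    omega
  obtain ⟨j, hinj, -, hgal, hT⟩ :=
    Fermat.Agent.TR.Hecke.Rep.exists_embedding_of_model P.freyCurve
      (Fermat.Agent.TR.Hecke.Rep.frey_disc_ne_zero P) hW P.pp hp2 hirr hres
  exact ⟨j, hinj, hgal, hT⟩

/-- **The top seam of TR, (REP) discharged**: the frozen statement S44 from (E-ST) and (KEY). -/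
theorem s44_of_est_key (hEST : TREst) (hKEY : TRKey)
    (P : FreyPackage) {N : ℕ} (hcond : P.IsConductorLevel N) (hpN : P.p ∣ N)
    (hirr : GaloisRepIsIrreducible (K := AlgebraicClosure ℚ) ℚ P.freyCurve P.p)
    (hmod : P.ModularRepOfLevel N) :
    ∃ M : ℕ, M ∣ N ∧ ¬ P.p ∣ M ∧ P.ModularRepOfLevel M :=
  s44_of tRRep hEST hKEY P hcond hpN hirr hmod

end Fermat.Agent.TR.Top
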