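/-
TR (row 38 through S44) — the TOP SEAM, third layer (helper20).

`tREst : TREst` — (E-ST) is a theorem (helper5, `TR.ESide.Est.frey_est`), and (REP) is a theorem
(`tRRep`, layer two), so the top seam only needs (KEY):

`s44_of_key : TRKey → (frozen statement S44)`.
-/
import Mathlib
import Fermat.Agent.TR.Top.S44Of2
import Fermat.Agent.TR.ESide.EstThm

set_option autoImplicit false

namespace Fermat.Agent.TR.Top

/-- **(E-ST)** is a theorem. -/
theorem tREst : TREst := fun P hpabc A hA => Fermat.Agent.TR.ESide.Est.frey_est P hpabc A hA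

/-- **The top seam of TR, (REP) and (E-ST) discharged**: the frozen statement S44 from (KEY). -/
theorem s44_of_key (hKEY : TRKey)
    (P : FreyPackage) {N : ℕ} (hcond : P.IsConductorLevel N) (hpN : P.p ∣ N)
    (hirr : WeierstrassCurve.Affine.Point.GaloisRepIsIrreducible (K := AlgebraicClosure ℚ) ℚ
      P.freyCurve P.p)
    (hmod : P.ModularRepOfLevel N) :
    ∃ M : ℕ, M ∣ N ∧ ¬ P.p ∣ M ∧ P.ModularRepOfLevel M :=
  s44_of tRRep tREst hKEY P hcond hpN hirr hmod

end Fermat.Agent.TR.Top
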